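import Mathlib

/-!
# MOONSHOT S52, block K1, leaf F (DESCENT): a semilinear automorphism of `L(w)` preserving the
place `w = ∞` is affine

`Ω = L(w)`, `A` a valuation subring of `Ω` containing `L` with `w ∉ A`, `σ` a ring automorphism of
`Ω`, semilinear over `τ : L ≃+* L`, with `σ A = A`.  Then `σ w = α w + β` (`affine_of_preserves'`).
`affine_of_preserves` is the same statement with the valuation subring given in an overfield `Fb`.

Proof: `σ w` generates `Ω` over `L`, hence is a Möbius transform `(a w + b) / (c w + d)` of `w`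
(`RatFunc.finrank_eq_max_natDegree`); if `c ≠ 0` then `σ w = (a + b / w) / (c + d / w) ∈ A`.
-/

set_option autoImplicit false

open IntermediateField Polynomial

namespace Fermat.Agent.SW.K1d.Moebius

variable {L Ω : Type*} [Field L] [Field Ω] [Algebra L Ω]

/-- An element outside a valuation subring containing `L` is transcendental over `L`. -/
theorem transcendental_of_notMem (A : ValuationSubring Ω) (hLA : ∀ c : L, algebraMap L Ω c ∈ A)
    {w : Ω} (hw : w ∉ A) : Transcendental L w := by
  intro halg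
  apply hw
  obtain ⟨p, hp, hpw⟩ := halg.isIntegral
  let φ : L →+* A := (algebraMap L Ω).codRestrict A.toSubring hLA
  have h1 : IsIntegral A w := by
    refine ⟨p.map φ, hp.map _, ?_⟩
    rw [Polynomial.eval₂_map]
    have : (algebraMap A Ω).comp φ = algebraMap L Ω := by
      ext a
      rfl
    rw [this]
    exact hpw
  obtain ⟨y, hy⟩ := (IsIntegrallyClosed.isIntegral_iff (R := A) (K := Ω) (x := w)).mp h1
  rw [← hy]
  exact y.2

/-- The image of a generator under a semilinear automorphism is a generator. -/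
theorem adjoin_map_eq_top {w : Ω} (hw : L⟮w⟯ = ⊤) (σ : Ω ≃+* Ω) (τ : L ≃+* L)
    (hστ : ∀ c, σ (algebraMap L Ω c) = algebraMap L Ω (τ c)) : L⟮σ w⟯ = ⊤ := by
  let S : IntermediateField L Ω :=
    { toSubalgebra :=
        { carrier := {y | σ y ∈ L⟮σ w⟯}
          mul_mem' := fun {a b} ha hb => by
            show σ (a * b) ∈ L⟮σ w⟯
            rw [map_mul]
            exact mul_mem ha hb
          one_mem' := by
            show σ 1 ∈ L⟮σ w⟯
            rw [map_one]
            exact one_mem _
          add_mem' := fun {a b} ha hb => by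
            show σ (a + b) ∈ L⟮σ w⟯
            rw [map_add]
            exact add_mem ha hb
          zero_mem' := by
            show σ 0 ∈ L⟮σ w⟯
            rw [map_zero]
            exact zero_mem _
          algebraMap_mem' := fun c => by
            show σ (algebraMap L Ω c) ∈ L⟮σ w⟯
            rw [hστ]
            exact IntermediateField.algebraMap_mem _ _ }
      inv_mem' := fun y hy => by
        show σ y⁻¹ ∈ L⟮σ w⟯
        rw [map_inv₀]
        exact inv_mem hy }
  have hwS : w ∈ S := mem_adjoin_simple_self L (σ w)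
  have hle : L⟮w⟯ ≤ S := adjoin_simple_le_iff.mpr hwS
  rw [hw] at hle
  refine eq_top_iff.mpr fun x _ => ?_
  have h1 : σ.symm x ∈ S := hle IntermediateField.mem_top
  have h2 : σ (σ.symm x) ∈ L⟮σ w⟯ := h1
  rwa [RingEquiv.apply_symm_apply] at h2

/-- **Möbius lemma.** -/
theorem affine_of_preserves' (A : ValuationSubring Ω) (hLA : ∀ c : L, algebraMap L Ω c ∈ A)
    (w : Ω) (hw : L⟮w⟯ = ⊤) (hwA : w ∉ A) (σ : Ω ≃+* Ω) (τ : L ≃+* L)
    (hστ : ∀ c, σ (algebraMap L Ω c) = algebraMap L Ω (τ c))
    (hσA : ∀ x : Ω, x ∈ A ↔ σ x ∈ A) :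
    ∃ α β : L, σ w = algebraMap L Ω α * w + algebraMap L Ω β := by
  have htr : Transcendental L w := transcendental_of_notMem A hLA hwA
  have hinj : Function.Injective (aeval w : L[X] → Ω) := transcendental_iff_injective.mp htr
  -- the isomorphism `RatFunc L ≃ Ω`
  let e' : RatFunc L ≃ₐ[L] Ω :=
    (RatFunc.algEquivOfTranscendental w htr).trans
      ((IntermediateField.equivOfEq hw).trans IntermediateField.topEquiv)
  have he' : ∀ u : RatFunc L, e' u = aeval w u.num / aeval w u.denom := fun u => by
    show ((RatFunc.algEquivOfTranscendental w htr u : L⟮w⟯) : Ω) = _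
    rw [RatFunc.algEquivOfTranscendental_apply]
  set f : RatFunc L := e'.symm (σ w) with hf
  have hfσ : e' f = σ w := by rw [hf, AlgEquiv.apply_symm_apply]
  -- `f` generates `RatFunc L`
  have hσtop : L⟮σ w⟯ = ⊤ := adjoin_map_eq_top hw σ τ hστ
  have hftop : L⟮f⟯ = ⊤ := by
    refine eq_top_iff.mpr fun g _ => ?_
    have h1 : e' g ∈ L⟮σ w⟯ := by rw [hσtop]; exact IntermediateField.mem_top
    have h2 : L⟮σ w⟯ = (L⟮f⟯).map (e' : RatFunc L →ₐ[L] Ω) := by
      rw [IntermediateField.adjoin_map, Set.image_singleton]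
      congr 2
      exact hfσ.symm
    rw [h2] at h1
    obtain ⟨g', hg', hgg⟩ := h1
    have : g' = g := e'.injective hgg
    rwa [← this]
  have hdeg := RatFunc.finrank_eq_max_natDegree f
  rw [hftop, IntermediateField.finrank_top] at hdeg
  set p := f.num with hp
  set q := f.denom with hq
  have hpdeg : p.natDegree ≤ 1 := by omega
  have hqdeg : q.natDegree ≤ 1 := by omega
  have hq0 : q ≠ 0 := RatFunc.denom_ne_zero f
  have hpe := Polynomial.eq_X_add_C_of_natDegree_le_one hpdeg
  have hqe := Polynomial.eq_X_add_C_of_natDegree_le_one hqdeg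
  set a := p.coeff 1
  set b := p.coeff 0
  set c := q.coeff 1
  set d := q.coeff 0
  have hσw : σ w = (algebraMap L Ω a * w + algebraMap L Ω b) /
      (algebraMap L Ω c * w + algebraMap L Ω d) := by
    rw [← hfσ, he', ← hp, ← hq, hpe, hqe]
    simp only [map_add, map_mul, aeval_C, aeval_X]
  have hden : algebraMap L Ω c * w + algebraMap L Ω d ≠ 0 := by
    have h1 : aeval w q ≠ 0 := fun h => hq0 (hinj (by rw [h, map_zero]))
    rw [hqe] at h1
    simpa only [map_add, map_mul, aeval_C, aeval_X] using h1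
  by_cases hc : c = 0
  · -- affine
    rw [hc, map_zero, zero_mul, zero_add] at hσw hden
    have hd : d ≠ 0 := fun h => hden (by rw [h, map_zero])
    refine ⟨a / d, b / d, ?_⟩
    rw [hσw, map_div₀, map_div₀]
    field_simp
  · -- `c ≠ 0` : then `σ w ∈ A`
    exfalso
    have hw0 : w ≠ 0 := fun h => hwA (h ▸ A.zero_mem)
    set v := A.valuation with hv
    have hmem : ∀ x : Ω, v x ≤ 1 ↔ x ∈ A := fun x => A.valuation_le_one_iff x
    have hvw : 1 < v w := by
      by_contra h
      exact hwA ((hmem w).mp (not_lt.mp h))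
    have hvu : v w⁻¹ < 1 := by
      rw [map_inv₀]
      exact inv_lt_one_of_one_lt₀ hvw
    have hconst : ∀ x : L, v (algebraMap L Ω x) ≤ 1 := fun x => (hmem _).mpr (hLA x)
    have hc1 : v (algebraMap L Ω c) = 1 := by
      refine le_antisymm (hconst c) ?_
      have h1 : v (algebraMap L Ω c) * v (algebraMap L Ω c⁻¹) = 1 := by
        rw [← map_mul, ← map_mul, mul_inv_cancel₀ hc, map_one, map_one]
      calc (1 : _) = v (algebraMap L Ω c) * v (algebraMap L Ω c⁻¹) := h1.symm
        _ ≤ v (algebraMap L Ω c) * 1 := by gcongr; exact hconst _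
        _ = v (algebraMap L Ω c) := mul_one _
    have hrew : σ w = (algebraMap L Ω a + algebraMap L Ω b * w⁻¹) /
        (algebraMap L Ω c + algebraMap L Ω d * w⁻¹) := by
      rw [hσw]
      have h2 : algebraMap L Ω c + algebraMap L Ω d * w⁻¹ ≠ 0 := by
        intro h
        apply hden
        have : algebraMap L Ω c * w + algebraMap L Ω d =
            (algebraMap L Ω c + algebraMap L Ω d * w⁻¹) * w := by
          field_simp
        rw [this, h, zero_mul]
      rw [div_eq_div_iff hden h2]
      field_simp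
    have hbw : v (algebraMap L Ω b * w⁻¹) ≤ 1 := by
      rw [map_mul]
      calc v (algebraMap L Ω b) * v w⁻¹ ≤ 1 * 1 :=
            mul_le_mul' (hconst b) hvu.le
          _ = 1 := mul_one 1
    have hnum : v (algebraMap L Ω a + algebraMap L Ω b * w⁻¹) ≤ 1 :=
      le_trans (Valuation.map_add_le_max' v _ _) (max_le (hconst a) hbw)
    have hdv : v (algebraMap L Ω c + algebraMap L Ω d * w⁻¹) = 1 := by
      rw [Valuation.map_add_eq_of_lt_left v, hc1]
      rw [hc1, map_mul]
      calc v (algebraMap L Ω d) * v w⁻¹ ≤ 1 * v w⁻¹ := by gcongr; exact hconst d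
        _ = v w⁻¹ := one_mul _
        _ < 1 := hvu
    have hσwA : σ w ∈ A := by
      rw [← hmem, hrew, map_div₀, hdv, div_one]
      exact hnum
    exact hwA ((hσA w).mpr hσwA)

/-- **Möbius lemma**, the valuation subring living in an overfield `Fb`. -/
theorem affine_of_preserves {Fb : Type*} [Field Fb] [Algebra Ω Fb] (O : ValuationSubring Fb)
    (hLO : ∀ c : L, algebraMap Ω Fb (algebraMap L Ω c) ∈ O)
    (w : Ω) (hw : L⟮w⟯ = ⊤) (hwO : algebraMap Ω Fb w ∉ O)
    (σ : Ω ≃+* Ω) (τ : L ≃+* L) (hστ : ∀ c, σ (algebraMap L Ω c) = algebraMap L Ω (τ c))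
    (hσO : ∀ x : Ω, algebraMap Ω Fb x ∈ O ↔ algebraMap Ω Fb (σ x) ∈ O) :
    ∃ α β : L, σ w = algebraMap L Ω α * w + algebraMap L Ω β :=
  affine_of_preserves' (O.comap (algebraMap Ω Fb)) hLO w hw hwO σ τ hστ hσO

end Fermat.Agent.SW.K1d.Moebius
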